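import Mathlib

section MergeWrap_F3_I2_Root -- from F3/I2/Root.lean

namespace Fermat.Agent.F3I2

open Complex Metric Set Filter Topology


/-- A nonvanishing holomorphic function on a ball has a holomorphic `n`-th root. -/
theorem exists_root_of_ne_zero_on_ball {c : ℂ} {r : ℝ} {w : ℂ → ℂ}
    (hw : DifferentiableOn ℂ w (ball c r)) (hw0 : ∀ z ∈ ball c r, w z ≠ 0) {n : ℕ} (hn : n ≠ 0) :
    ∃ f : ℂ → ℂ, DifferentiableOn ℂ f (ball c r) ∧ ∀ z ∈ ball c r, f z ^ n = w z := by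
  have hdw : DifferentiableOn ℂ (deriv w) (ball c r) := hw.deriv isOpen_ball
  have hφ : DifferentiableOn ℂ (fun z => deriv w z / w z) (ball c r) := hdw.div hw hw0
  obtain ⟨L, hL⟩ := hφ.isExactOn_ball
  set F : ℂ → ℂ := fun z => w z * exp (-L z) with hF
  have hFd : ∀ z ∈ ball c r, HasDerivAt F 0 z := by
    intro z hz
    have h1 : HasDerivAt w (deriv w z) z :=
      (hw.differentiableAt (isOpen_ball.mem_nhds hz)).hasDerivAt
    have h2 : HasDerivAt (fun z => exp (-L z)) (exp (-L z) * (-(deriv w z / w z))) z :=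
      ((hL z hz).neg).cexp
    have h3 := h1.mul h2
    have : deriv w z * exp (-L z) + w z * (exp (-L z) * (-(deriv w z / w z))) = 0 := by
      field_simp [hw0 z hz]
      ring
    rw [this] at h3
    exact h3
  have hFdiff : DifferentiableOn ℂ F (ball c r) := fun z hz =>
    (hFd z hz).differentiableAt.differentiableWithinAt
  have hconst : ∀ z ∈ ball c r, ∀ z' ∈ ball c r, F z = F z' := by
    intro z hz z' hz'
    exact isOpen_ball.is_const_of_deriv_eq_zero (convex_ball c r).isPreconnected hFdiff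
      (fun x hx => (hFd x hx).deriv) hz hz'
  by_cases hr : 0 < r
  · have hc : c ∈ ball c r := mem_ball_self hr
    set a : ℂ := F c with ha
    have ha0 : a ≠ 0 := by
      simp only [ha, hF]
      exact mul_ne_zero (hw0 c hc) (exp_ne_zero _)
    have hwL : ∀ z ∈ ball c r, w z = a * exp (L z) := by
      intro z hz
      have := hconst z hz c hc
      simp only [hF] at this
      rw [ha]
      simp only [hF]
      rw [← this, mul_assoc, ← exp_add]
      simp
    refine ⟨fun z => exp ((log a + L z) / n), ?_, ?_⟩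
    · intro z hz
      have hLd : DifferentiableAt ℂ L z := (hL z hz).differentiableAt
      exact (((differentiableAt_const _).add hLd).div_const _).cexp.differentiableWithinAt
    · intro z hz
      rw [← exp_nat_mul, mul_div_cancel₀ _ (by exact_mod_cast hn), exp_add, exp_log ha0, hwL z hz]
  · refine ⟨fun _ => 0, differentiableOn_const _, ?_⟩
    intro z hz
    rw [ball_eq_empty.2 (not_lt.1 hr)] at hz
    exact absurd hz (notMem_empty z)



/-- If two functions agree on a set codiscrete within an open set `V` and are both continuous at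
`x ∈ V`, they agree at `x`. -/
theorem eq_of_eventuallyEq_codiscreteWithin_open {V : Set ℂ} (hV : IsOpen V) {f g : ℂ → ℂ}
    (h : f =ᶠ[codiscreteWithin V] g) {x : ℂ} (hx : x ∈ V)
    (hf : ContinuousAt f x) (hg : ContinuousAt g x) : f x = g x := by
  have h1 : {y | f y = g y} ∪ Vᶜ ∈ 𝓝[≠] x :=
    (mem_codiscreteWithin_iff_forall_mem_nhdsNE.1 h) x hx
  have h2 : V ∈ 𝓝[≠] x := mem_nhdsWithin_of_mem_nhds (hV.mem_nhds hx)
  have h3 : f =ᶠ[𝓝[≠] x] g := by
    filter_upwards [h1, h2] with y hy hyV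
    rcases hy with hy | hy
    · exact hy
    · exact absurd hyV hy
  exact ((hf.eventuallyEq_nhds_iff_eventuallyEq_nhdsNE hg).1 h3).self_of_nhds

/-- Root extraction on a ball, allowing zeros whose orders are all divisible by `n`. -/
theorem exists_root_on_ball {c : ℂ} {r R : ℝ} (hrR : r < R) {G : ℂ → ℂ}
    (hG : DifferentiableOn ℂ G (ball c R)) {n : ℕ} (hn : n ≠ 0)
    (hord : ∀ z ∈ ball c R, ∃ m : ℕ, analyticOrderAt G z = ((n * m : ℕ) : ℕ∞)) :
    ∃ h : ℂ → ℂ, DifferentiableOn ℂ h (ball c r) ∧ ∀ z ∈ ball c r, h z ^ n = G z := by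
  classical
  set U : Set ℂ := closedBall c r with hU
  have hUR : U ⊆ ball c R := closedBall_subset_ball hrR
  have hGan : AnalyticOnNhd ℂ G (ball c R) := hG.analyticOnNhd isOpen_ball
  have hGU : AnalyticOnNhd ℂ G U := hGan.mono hUR
  have hmer : MeromorphicOn G U := hGU.meromorphicOn
  have hfin : (MeromorphicOn.divisor G U).support.Finite :=
    (MeromorphicOn.divisor G U).finiteSupport (isCompact_closedBall c r)
  have hne : ∀ u : U, meromorphicOrderAt G u ≠ ⊤ := by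
    intro ⟨u, hu⟩
    obtain ⟨m, hm⟩ := hord u (hUR hu)
    rw [(hGU u hu).meromorphicOrderAt_eq, hm, ENat.map_natCast]
    exact WithTop.coe_ne_top
  obtain ⟨w, hwan, hw0, hEq⟩ := hmer.extract_zeros_poles hne hfin
  set D := MeromorphicOn.divisor G U with hDdef
  have hD : ∀ u, ∃ m : ℕ, D u = ((m : ℕ) : ℤ) * n := by
    intro u
    by_cases hu : u ∈ U
    · obtain ⟨m, hm⟩ := hord u (hUR hu)
      refine ⟨m, ?_⟩
      rw [hDdef, MeromorphicOn.divisor_apply hmer hu, (hGU u hu).meromorphicOrderAt_eq, hm,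
        ENat.map_natCast, WithTop.untop₀_coe]
      push_cast
      ring
    · refine ⟨0, ?_⟩
      have : D u = 0 := by
        rw [hDdef, MeromorphicOn.divisor_def]
        simp [hu]
      simp [this]
  choose d hd using hD
  obtain ⟨f, hfd, hfn⟩ := exists_root_of_ne_zero_on_ball (w := w) (c := c) (r := r)
    (hwan.differentiableOn.mono ball_subset_closedBall)
    (fun z hz => hw0 ⟨z, ball_subset_closedBall hz⟩) hn
  set P : ℂ → ℂ := fun z => ∏ u ∈ hfin.toFinset, (z - u) ^ (d u) with hP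
  have hprod : ∀ z, (∏ᶠ u, (· - u) ^ D u) z = P z ^ n := by
    intro z
    have hsub : (fun u => (fun x : ℂ => x - u) ^ D u).mulSupport ⊆ hfin.toFinset := by
      rw [Function.FactorizedRational.mulSupport]
      simp
    rw [finprod_eq_prod_of_mulSupport_subset _ hsub, Finset.prod_apply, hP]
    simp only [Pi.pow_apply]
    rw [← Finset.prod_pow]
    refine Finset.prod_congr rfl (fun u _ => ?_)
    rw [hd u, zpow_mul, zpow_natCast, zpow_natCast]
  refine ⟨fun z => P z * f z, ?_, ?_⟩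
  · have hPd : Differentiable ℂ P := by
      rw [hP]
      fun_prop
    exact hPd.differentiableOn.mul hfd
  · intro z hz
    have hzU : z ∈ U := ball_subset_closedBall hz
    have hEq' : G =ᶠ[codiscreteWithin (ball c r)] (∏ᶠ u, (· - u) ^ D u) • w :=
      hEq.filter_mono (Filter.codiscreteWithin_mono ball_subset_closedBall)
    have hcG : ContinuousAt G z := (hGU z hzU).continuousAt
    have hcR : ContinuousAt ((∏ᶠ u, (· - u) ^ D u) • w) z := by
      have h1 : AnalyticAt ℂ (∏ᶠ u, (· - u) ^ D u) z := by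
        apply Function.FactorizedRational.analyticAt
        rw [hd z]
        positivity
      exact (h1.continuousAt).smul (hwan z hzU).continuousAt
    have := eq_of_eventuallyEq_codiscreteWithin_open isOpen_ball hEq' hz hcG hcR
    rw [this]
    simp only [Pi.smul_apply', smul_eq_mul]
    rw [hprod z, mul_pow, hfn z hz]



/-- Uniqueness of holomorphic `n`-th roots normalised at a point where they do not vanish. -/
theorem root_eqOn_of_eq_at {V : Set ℂ} (hVo : IsOpen V) (hVc : IsPreconnected V)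
    {h₁ h₂ : ℂ → ℂ} (hh₁ : DifferentiableOn ℂ h₁ V) (hh₂ : DifferentiableOn ℂ h₂ V)
    {n : ℕ} (hn : n ≠ 0) (hpow : ∀ z ∈ V, h₁ z ^ n = h₂ z ^ n)
    {z₀ : ℂ} (hz₀ : z₀ ∈ V) (heq : h₁ z₀ = h₂ z₀) (hne : h₂ z₀ ≠ 0) : EqOn h₁ h₂ V := by
  have ha₁ : AnalyticOnNhd ℂ h₁ V := hh₁.analyticOnNhd hVo
  have ha₂ : AnalyticOnNhd ℂ h₂ V := hh₂.analyticOnNhd hVo
  refine ha₁.eqOn_of_preconnected_of_eventuallyEq ha₂ hVc hz₀ ?_
  set S : ℂ → ℂ := fun z => ∑ i ∈ Finset.range n, h₁ z ^ i * h₂ z ^ (n - 1 - i) with hS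
  have hSc : ContinuousAt S z₀ := by
    rw [hS]
    refine tendsto_finsetSum _ (fun i _ => ?_)
    exact ((ha₁ z₀ hz₀).continuousAt.pow i).mul ((ha₂ z₀ hz₀).continuousAt.pow _)
  have hS0 : S z₀ ≠ 0 := by
    have : S z₀ = n * h₂ z₀ ^ (n - 1) := by
      simp only [hS, heq]
      have : ∀ i ∈ Finset.range n, h₂ z₀ ^ i * h₂ z₀ ^ (n - 1 - i) = h₂ z₀ ^ (n - 1) := by
        intro i hi
        rw [← pow_add]
        congr 1
        have := Finset.mem_range.1 hi
        omega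
      rw [Finset.sum_congr rfl this]
      simp
    rw [this]
    exact mul_ne_zero (by exact_mod_cast hn) (pow_ne_zero _ hne)
  have hSne : ∀ᶠ z in 𝓝 z₀, S z ≠ 0 := hSc.eventually_ne hS0
  filter_upwards [hSne, hVo.mem_nhds hz₀] with z hz hzV
  have h1 : S z * (h₁ z - h₂ z) = h₁ z ^ n - h₂ z ^ n := by
    simp only [hS]
    exact geom_sum₂_mul (h₁ z) (h₂ z) n
  rw [hpow z hzV, sub_self] at h1
  rcases mul_eq_zero.1 h1 with h | h
  · exact absurd h hz
  · exact sub_eq_zero.1 h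

/-- Gluing holomorphic `n`-th roots along an increasing exhaustion by preconnected open sets. -/
theorem exists_root_of_exhaustion {U : Set ℂ} (D : ℕ → Set ℂ) (hDo : ∀ m, IsOpen (D m))
    (hDc : ∀ m, IsPreconnected (D m)) (hmono : Monotone D) (hU : U = ⋃ m, D m)
    {g : ℂ → ℂ} {n : ℕ} (hn : n ≠ 0)
    (hloc : ∀ m, ∃ h : ℂ → ℂ, DifferentiableOn ℂ h (D m) ∧ ∀ z ∈ D m, h z ^ n = g z)
    {z₀ : ℂ} (hz₀ : z₀ ∈ D 0) (hgz₀ : g z₀ ≠ 0) :
    ∃ h : ℂ → ℂ, DifferentiableOn ℂ h U ∧ ∀ z ∈ U, h z ^ n = g z := by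
  classical
  choose h₀ hh₀d hh₀p using hloc
  have hz₀m : ∀ m, z₀ ∈ D m := fun m => hmono (Nat.zero_le m) hz₀
  have hne₀ : ∀ m, h₀ m z₀ ≠ 0 := by
    intro m hm
    have := hh₀p m z₀ (hz₀m m)
    rw [hm, zero_pow hn] at this
    exact hgz₀ this.symm
  set w₀ : ℂ := h₀ 0 z₀ with hw₀
  have hw₀n : w₀ ^ n = g z₀ := hh₀p 0 z₀ hz₀
  have hw₀0 : w₀ ≠ 0 := hne₀ 0
  set h' : ℕ → ℂ → ℂ := fun m z => (w₀ / h₀ m z₀) * h₀ m z with hh'
  have hh'd : ∀ m, DifferentiableOn ℂ (h' m) (D m) := fun m =>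
    (hh₀d m).const_mul _
  have hh'p : ∀ m, ∀ z ∈ D m, h' m z ^ n = g z := by
    intro m z hz
    simp only [hh']
    rw [mul_pow, div_pow, hw₀n, hh₀p m z hz, hh₀p m z₀ (hz₀m m), div_self hgz₀, one_mul]
  have hh'z : ∀ m, h' m z₀ = w₀ := by
    intro m
    simp only [hh']
    field_simp [hne₀ m]
  have hcompat : ∀ k m, k ≤ m → EqOn (h' k) (h' m) (D k) := by
    intro k m hkm
    refine root_eqOn_of_eq_at (hDo k) (hDc k) (hh'd k) ((hh'd m).mono (hmono hkm)) hn ?_
      (hz₀m k) ?_ ?_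
    · intro z hz
      rw [hh'p k z hz, hh'p m z (hmono hkm hz)]
    · rw [hh'z, hh'z]
    · rw [hh'z]; exact hw₀0
  set h : ℂ → ℂ := fun z => if hz : ∃ m, z ∈ D m then h' (Nat.find hz) z else 0 with hh
  have hhm : ∀ m, EqOn h (h' m) (D m) := by
    intro m z hz
    have hex : ∃ m, z ∈ D m := ⟨m, hz⟩
    simp only [hh, dif_pos hex]
    have hk : z ∈ D (Nat.find hex) := Nat.find_spec hex
    have hkm : Nat.find hex ≤ m := Nat.find_min' hex hz
    exact hcompat _ _ hkm hk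
  refine ⟨h, ?_, ?_⟩
  · intro z hz
    rw [hU] at hz
    obtain ⟨m, hm⟩ := mem_iUnion.1 hz
    have hev : h =ᶠ[𝓝 z] h' m := by
      filter_upwards [(hDo m).mem_nhds hm] with y hy using hhm m hy
    have hd : DifferentiableAt ℂ (h' m) z := (hh'd m).differentiableAt ((hDo m).mem_nhds hm)
    exact (hev.differentiableAt_iff.2 hd).differentiableWithinAt
  · intro z hz
    rw [hU] at hz
    obtain ⟨m, hm⟩ := mem_iUnion.1 hz
    rw [hhm m hm, hh'p m z hm]



/-- The exhausting balls of the upper half plane. -/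
noncomputable def hBall (R : ℝ) : Set ℂ := ball ((R : ℂ) * I) (R - 1 / R)

theorem hBall_subset_ball (R : ℝ) (hR : 1 ≤ R) : hBall R ⊆ ball ((R : ℂ) * I) R := by
  refine ball_subset_ball ?_
  have : 0 < 1 / R := by positivity
  linarith

theorem ball_subset_upper (R : ℝ) : ball ((R : ℂ) * I) R ⊆ {z : ℂ | 0 < z.im} := by
  intro z hz
  rw [mem_ball, dist_eq_norm] at hz
  have h1 : |(z - (R : ℂ) * I).im| ≤ ‖z - (R : ℂ) * I‖ := Complex.abs_im_le_norm _
  have h2 : (z - (R : ℂ) * I).im = z.im - R := by simp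
  rw [h2] at h1
  have h3 := (abs_lt.1 (lt_of_le_of_lt h1 hz)).1
  show 0 < z.im
  linarith

theorem hBall_mono {R R' : ℝ} (hR : 1 ≤ R) (hRR' : R ≤ R') : hBall R ⊆ hBall R' := by
  refine ball_subset_ball' ?_
  have hd : dist ((R : ℂ) * I) ((R' : ℂ) * I) = R' - R := by
    rw [dist_eq_norm, ← sub_mul, norm_mul, norm_I, mul_one, ← ofReal_sub, norm_real,
      Real.norm_eq_abs, abs_sub_comm, abs_of_nonneg (by linarith)]
  rw [hd]
  have hR0 : 0 < R := by linarith
  have hR'0 : 0 < R' := by linarith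
  have : 1 / R' ≤ 1 / R := one_div_le_one_div_of_le hR0 hRR'
  linarith

theorem mem_hBall {z : ℂ} (hz : 0 < z.im) {R : ℝ} (hR : 1 ≤ R)
    (hzR : (‖z‖ ^ 2 + 2) / (2 * z.im) ≤ R) : z ∈ hBall R := by
  have hR0 : 0 < R := by linarith
  rw [hBall, mem_ball, dist_eq_norm]
  have hr : 0 ≤ R - 1 / R := by
    have : 1 / R ≤ 1 := by
      rw [div_le_one hR0]; exact hR
    linarith
  have h1 : ‖z - (R : ℂ) * I‖ ^ 2 = ‖z‖ ^ 2 - 2 * z.im * R + R ^ 2 := by
    rw [← normSq_eq_norm_sq, ← normSq_eq_norm_sq, normSq_apply, normSq_apply]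
    simp
    ring
  have h2 : ‖z‖ ^ 2 + 2 ≤ 2 * z.im * R := by
    have := (div_le_iff₀ (by positivity : (0:ℝ) < 2 * z.im)).1 hzR
    linarith
  have h3 : (R - 1 / R) ^ 2 = R ^ 2 - 2 + 1 / R ^ 2 := by
    field_simp
    ring
  have h4 : ‖z - (R : ℂ) * I‖ ^ 2 < (R - 1 / R) ^ 2 := by
    rw [h1, h3]
    have : 0 < 1 / R ^ 2 := by positivity
    linarith
  exact lt_of_pow_lt_pow_left₀ 2 hr h4

/-- **Root extraction on the upper half plane** (coordinates in `ℂ`). -/
theorem exists_root_upperHalfPlane {g : ℂ → ℂ} (hg : DifferentiableOn ℂ g {z : ℂ | 0 < z.im})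
    {n : ℕ} (hn : n ≠ 0)
    (hord : ∀ z : ℂ, 0 < z.im → ∃ m : ℕ, analyticOrderAt g z = ((n * m : ℕ) : ℕ∞)) :
    ∃ h : ℂ → ℂ, DifferentiableOn ℂ h {z : ℂ | 0 < z.im} ∧ ∀ z : ℂ, 0 < z.im → h z ^ n = g z := by
  have hopen : IsOpen {z : ℂ | 0 < z.im} := isOpen_lt continuous_const Complex.continuous_im
  -- a point where `g` does not vanish
  obtain ⟨z₀, hz₀, hgz₀⟩ : ∃ z₀ : ℂ, 0 < z₀.im ∧ g z₀ ≠ 0 := by
    by_contra hcon
    push Not at hcon
    have hI : (0 : ℝ) < I.im := by simp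
    obtain ⟨m, hm⟩ := hord I hI
    have htop : analyticOrderAt g I = ⊤ := by
      rw [analyticOrderAt_eq_top]
      filter_upwards [hopen.mem_nhds hI] with z hz using hcon z hz
    rw [htop] at hm
    exact ENat.top_ne_natCast _ hm
  set R₀ : ℝ := max 1 ((‖z₀‖ ^ 2 + 2) / (2 * z₀.im)) with hR₀
  have hR₀1 : 1 ≤ R₀ := le_max_left _ _
  set D : ℕ → Set ℂ := fun m => hBall (R₀ + m) with hD
  have hR1 : ∀ m : ℕ, 1 ≤ R₀ + m := fun m => by
    have : (0 : ℝ) ≤ m := Nat.cast_nonneg m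
    linarith
  have hDsub : ∀ m, D m ⊆ {z : ℂ | 0 < z.im} := fun m =>
    (hBall_subset_ball _ (hR1 m)).trans (ball_subset_upper _)
  have hU : {z : ℂ | 0 < z.im} = ⋃ m, D m := by
    apply Subset.antisymm
    · intro z hz
      obtain ⟨m, hm⟩ := exists_nat_ge ((‖z‖ ^ 2 + 2) / (2 * z.im))
      refine mem_iUnion.2 ⟨m, mem_hBall hz (hR1 m) ?_⟩
      linarith
    · exact iUnion_subset hDsub
  have hmono : Monotone D := by
    intro k m hkm
    refine hBall_mono (hR1 k) ?_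
    have : (k : ℝ) ≤ m := by exact_mod_cast hkm
    linarith
  have key : ∃ h : ℂ → ℂ, DifferentiableOn ℂ h {z : ℂ | 0 < z.im} ∧
      ∀ z ∈ {z : ℂ | 0 < z.im}, h z ^ n = g z := by
    refine exists_root_of_exhaustion D (fun m => isOpen_ball)
      (fun m => (convex_ball _ _).isPreconnected) hmono hU hn ?_ (z₀ := z₀) ?_ hgz₀
    · intro m
      have hlt : R₀ + m - 1 / (R₀ + m) < R₀ + m := by
        have : 0 < 1 / (R₀ + (m : ℝ)) := by
          have := hR1 m
          positivity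
        linarith
      exact exists_root_on_ball hlt (hg.mono (ball_subset_upper _)) hn
        (fun z hz => hord z (ball_subset_upper _ hz))
    · refine mem_hBall hz₀ (hR1 0) ?_
      simp only [Nat.cast_zero, add_zero]
      exact le_max_right _ _
  obtain ⟨h, hd, hp⟩ := key
  exact ⟨h, hd, fun z hz => hp z hz⟩

end Fermat.Agent.F3I2
end MergeWrap_F3_I2_Root

section MergeWrap_F3_I2_Char -- from F3/I2/Char.lean

set_option autoImplicit false

noncomputable section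

namespace Fermat.Agent.F3I2

open UpperHalfPlane CongruenceSubgroup Filter Topology Complex ModularForm
open scoped MatrixGroups ModularForm Manifold

theorem isOpen_upper : IsOpen {z : ℂ | 0 < z.im} := isOpen_lt continuous_const Complex.continuous_im

theorem isPreconnected_upper : IsPreconnected {z : ℂ | 0 < z.im} :=
  (convex_halfSpace_im_gt 0).isPreconnected

/-- **Root extraction on `ℍ`** (manifold version of `exists_root_upperHalfPlane`). -/
theorem exists_mdiff_root {g : ℍ → ℂ} (hg : MDiff g) {n : ℕ} (hn : n ≠ 0)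
    (hord : ∀ τ : ℍ, ∃ m : ℕ, analyticOrderAt (g ∘ ofComplex) (τ : ℂ) = ((n * m : ℕ) : ℕ∞)) :
    ∃ h : ℍ → ℂ, MDiff h ∧ ∀ τ, h τ ^ n = g τ := by
  have hG : DifferentiableOn ℂ (g ∘ ofComplex) {z : ℂ | 0 < z.im} :=
    UpperHalfPlane.mdifferentiable_iff.1 hg
  obtain ⟨H, hHd, hHp⟩ := exists_root_upperHalfPlane hG hn
    (fun z hz => hord ⟨z, hz⟩)
  refine ⟨fun τ => H (τ : ℂ), ?_, ?_⟩
  · rw [UpperHalfPlane.mdifferentiable_iff]
    refine hHd.congr ?_
    intro z hz
    simp only [Function.comp_apply]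
    rw [ofComplex_apply_of_im_pos hz]
  · intro τ
    have := hHp (τ : ℂ) τ.im_pos
    simpa using this

/-- Two holomorphic functions on `ℍ` with the same `n`-th power differ by an `n`-th root of
unity. -/
theorem exists_smul_of_pow_eq_pow {u h : ℍ → ℂ} (hu : MDiff u) (hh : MDiff h) (hne : h ≠ 0)
    {n : ℕ} (hn : n ≠ 0) (hpow : ∀ τ, u τ ^ n = h τ ^ n) :
    ∃ ζ : ℂ, ζ ^ n = 1 ∧ ∀ τ, u τ = ζ * h τ := by
  obtain ⟨τ₀, hτ₀⟩ : ∃ τ₀, h τ₀ ≠ 0 := by
    by_contra hcon
    push Not at hcon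
    exact hne (funext hcon)
  set ζ : ℂ := u τ₀ / h τ₀ with hζ
  have hζn : ζ ^ n = 1 := by
    rw [hζ, div_pow, hpow τ₀, div_self (pow_ne_zero n hτ₀)]
  refine ⟨ζ, hζn, ?_⟩
  have hU : DifferentiableOn ℂ (u ∘ ofComplex) {z : ℂ | 0 < z.im} :=
    UpperHalfPlane.mdifferentiable_iff.1 hu
  have hH : DifferentiableOn ℂ (fun z => ζ * (h ∘ ofComplex) z) {z : ℂ | 0 < z.im} :=
    (UpperHalfPlane.mdifferentiable_iff.1 hh).const_mul ζ
  have hζ0 : ζ ≠ 0 := by
    intro h0
    rw [h0, zero_pow hn] at hζn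
    exact zero_ne_one hζn
  have key := root_eqOn_of_eq_at isOpen_upper isPreconnected_upper hU hH hn ?_
    (z₀ := (τ₀ : ℂ)) τ₀.im_pos ?_ ?_
  · intro τ
    have := key τ.im_pos
    simpa using this
  · intro z hz
    simp only [Function.comp_apply]
    rw [mul_pow, hζn, one_mul, hpow]
  · simp only [Function.comp_apply, ofComplex_apply]
    rw [hζ, div_mul_cancel₀ _ hτ₀]
  · simp only [Function.comp_apply, ofComplex_apply]
    exact mul_ne_zero hζ0 hτ₀

/-- Slash of a power, for `SL(2,ℤ)`. -/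
theorem pow_slash_SL2 (k : ℤ) (γ : SL(2, ℤ)) (f : ℍ → ℂ) (n : ℕ) :
    (f ^ n) ∣[(n : ℤ) * k] γ = (f ∣[k] γ) ^ n := by
  induction n with
  | zero =>
    simp only [pow_zero, Nat.cast_zero, zero_mul]
    exact is_invariant_one γ
  | succ m ih =>
    have h1 : ((m + 1 : ℕ) : ℤ) * k = (m : ℤ) * k + k := by push_cast; ring
    rw [h1, pow_succ, mul_slash_SL2, ih, pow_succ]

/-- **CHAR**: if `h` is holomorphic on `ℍ`, `h ≠ 0`, and `h ^ n` is invariant under `∣[n k]` for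
`Γ₀(N)`, then `h ∣[k] γ = χ(γ) h` for a homomorphism `χ : Γ₀(N) → μ_n`. -/
theorem exists_character_of_pow_slash {N : ℕ} {n : ℕ} (hn : n ≠ 0) {k : ℤ} {h : ℍ → ℂ}
    (hh : MDiff h) (hne : h ≠ 0)
    (hinv : ∀ γ : ↥(Gamma0 N), (h ^ n) ∣[(n : ℤ) * k] (γ : SL(2, ℤ)) = h ^ n) :
    ∃ χ : ↥(Gamma0 N) →* ℂˣ, (∀ γ, χ γ ^ n = 1) ∧
      ∀ γ : ↥(Gamma0 N), h ∣[k] (γ : SL(2, ℤ)) = ((χ γ : ℂˣ) : ℂ) • h := by
  classical
  obtain ⟨τ₀, hτ₀⟩ : ∃ τ₀, h τ₀ ≠ 0 := by
    by_contra hcon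
    push Not at hcon
    exact hne (funext hcon)
  have hex : ∀ γ : ↥(Gamma0 N), ∃ ζ : ℂ, ζ ^ n = 1 ∧ ∀ τ, (h ∣[k] (γ : SL(2, ℤ))) τ = ζ * h τ := by
    intro γ
    refine exists_smul_of_pow_eq_pow ?_ hh hne hn ?_
    · rw [SL_slash]
      exact hh.slash k _
    · intro τ
      have := congrFun (hinv γ) τ
      rw [pow_slash_SL2] at this
      simpa using this
  choose ζ hζn hζ using hex
  have hζ0 : ∀ γ, ζ γ ≠ 0 := by
    intro γ h0
    have := hζn γ
    rw [h0, zero_pow hn] at this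
    exact zero_ne_one this
  have huniq : ∀ (a b : ℂ), (∀ τ, a * h τ = b * h τ) → a = b := by
    intro a b hab
    exact mul_right_cancel₀ hτ₀ (hab τ₀)
  have hmul : ∀ γ δ : ↥(Gamma0 N), ζ (γ * δ) = ζ γ * ζ δ := by
    intro γ δ
    apply huniq
    intro τ
    rw [← hζ (γ * δ) τ]
    have h1 : h ∣[k] ((γ * δ : ↥(Gamma0 N)) : SL(2, ℤ)) =
        (h ∣[k] (γ : SL(2, ℤ))) ∣[k] (δ : SL(2, ℤ)) := by
      rw [Subgroup.coe_mul, SlashAction.slash_mul]
    have h2 : h ∣[k] (γ : SL(2, ℤ)) = ζ γ • h := by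
      ext τ'
      rw [hζ γ τ']
      rfl
    rw [h1, h2, SL_smul_slash]
    simp only [Pi.smul_apply, smul_eq_mul]
    rw [hζ δ τ]
    ring
  have hone : ζ 1 = 1 := by
    have := hmul 1 1
    rw [mul_one] at this
    exact (mul_right_cancel₀ (hζ0 1) (this.symm.trans (one_mul _).symm)).symm ▸ rfl
  refine ⟨{ toFun := fun γ => Units.mk0 (ζ γ) (hζ0 γ)
            map_one' := Units.ext (by simpa using hone)
            map_mul' := fun γ δ => Units.ext (by simpa using hmul γ δ) }, ?_, ?_⟩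
  · intro γ
    apply Units.ext
    simpa using hζn γ
  · intro γ
    ext τ
    rw [hζ γ τ]
    rfl

end Fermat.Agent.F3I2
end
end MergeWrap_F3_I2_Char
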