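import Mathlib
import Fermat.Prelude.Sol.S_ModularForm_heckeT_slash_eq_self_of_mem_Gamma0
import Fermat.Agent.F3.EigenChar.Defs

section MergeWrap_F3_I2_EisWeighted -- from F3/I2/EisWeighted.lean

set_option autoImplicit false

noncomputable section

namespace Fermat.Agent.F3I2

open UpperHalfPlane Filter Topology CongruenceSubgroup EisensteinSeries Matrix ModularForm
open scoped MatrixGroups Manifold ModularForm

/-- Right multiplication by `γ ∈ SL(2,ℤ)` on `ℤ²`. -/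
def eisVecMulEquiv (γ : SL(2, ℤ)) : (Fin 2 → ℤ) ≃ (Fin 2 → ℤ) where
  toFun v := v ᵥ* (↑γ : Matrix (Fin 2) (Fin 2) ℤ)
  invFun v := v ᵥ* (↑(γ⁻¹) : Matrix (Fin 2) (Fin 2) ℤ)
  left_inv v := by
    show (v ᵥ* (↑γ : Matrix (Fin 2) (Fin 2) ℤ)) ᵥ* (↑(γ⁻¹) : Matrix (Fin 2) (Fin 2) ℤ) = v
    rw [vecMul_vecMul, ← Matrix.SpecialLinearGroup.coe_mul, mul_inv_cancel,
      Matrix.SpecialLinearGroup.coe_one, vecMul_one]
  right_inv v := by
    show (v ᵥ* (↑(γ⁻¹) : Matrix (Fin 2) (Fin 2) ℤ)) ᵥ* (↑γ : Matrix (Fin 2) (Fin 2) ℤ) = v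
    rw [vecMul_vecMul, ← Matrix.SpecialLinearGroup.coe_mul, inv_mul_cancel,
      Matrix.SpecialLinearGroup.coe_one, vecMul_one]

@[simp] theorem eisVecMulEquiv_apply (γ : SL(2, ℤ)) (v : Fin 2 → ℤ) : eisVecMulEquiv γ v = v ᵥ* (↑γ : Matrix (Fin 2) (Fin 2) ℤ) := rfl

theorem eis_vecMul_vecMul_inv (γ : SL(2, ℤ)) (v : Fin 2 → ℤ) : (v ᵥ* (↑γ : Matrix (Fin 2) (Fin 2) ℤ)) ᵥ* (↑(γ⁻¹) : Matrix (Fin 2) (Fin 2) ℤ) = v :=
  (eisVecMulEquiv γ).left_inv v

theorem eis_vecMul_inv_vecMul (γ : SL(2, ℤ)) (v : Fin 2 → ℤ) : (v ᵥ* (↑(γ⁻¹) : Matrix (Fin 2) (Fin 2) ℤ)) ᵥ* (↑γ : Matrix (Fin 2) (Fin 2) ℤ) = v :=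
  (eisVecMulEquiv γ).right_inv v

/-- The weighted Eisenstein sum. -/
def wEis (k : ℤ) (w : (Fin 2 → ℤ) → ℂ) (z : ℍ) : ℂ :=
  ∑' v : Fin 2 → ℤ, w v * eisSummand k v z

theorem summable_wEis {k : ℤ} (hk : 3 ≤ k) {w : (Fin 2 → ℤ) → ℂ} (hw : ∀ v, ‖w v‖ ≤ 1) (z : ℍ) :
    Summable fun v => w v * eisSummand k v z :=
  Summable.of_norm_bounded (summable_norm_eisSummand hk z) (fun v => by
    rw [norm_mul]
    exact mul_le_of_le_one_left (norm_nonneg _) (hw v))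

/-- Slash formula for weighted Eisenstein sums. -/
theorem wEis_slash {k : ℤ} (w : (Fin 2 → ℤ) → ℂ) (γ : SL(2, ℤ)) :
    wEis k w ∣[k] γ = wEis k (fun v => w (v ᵥ* (↑(γ⁻¹) : Matrix (Fin 2) (Fin 2) ℤ))) := by
  ext1 z
  simp_rw [SL_slash_apply, _root_.zpow_neg,
    mul_inv_eq_iff_eq_mul₀ (zpow_ne_zero _ <| denom_ne_zero _ z), wEis, eisSummand_SL2_apply]
  have e : ∀ v : Fin 2 → ℤ, w v * (denom (γ : GL (Fin 2) ℝ) z ^ k * eisSummand k (v ᵥ* (↑γ : Matrix (Fin 2) (Fin 2) ℤ)) z)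
      = (fun u : Fin 2 → ℤ => w (u ᵥ* (↑(γ⁻¹) : Matrix (Fin 2) (Fin 2) ℤ)) * eisSummand k u z) (eisVecMulEquiv γ v)
        * denom (γ : GL (Fin 2) ℝ) z ^ k := by
    intro v
    simp only [eisVecMulEquiv_apply, eis_vecMul_vecMul_inv]
    ring
  simp_rw [e]
  rw [tsum_mul_right]
  congr 1
  exact (eisVecMulEquiv γ).tsum_eq (fun u : Fin 2 → ℤ => w (u ᵥ* (↑(γ⁻¹) : Matrix (Fin 2) (Fin 2) ℤ)) * eisSummand k u z)

/-! ### Holomorphy -/

theorem eis_norm_eisSummand_le_of_mem_verticalStrip {k : ℤ} (hk : 0 ≤ k) {A B : ℝ} (hB : 0 < B)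
    {z : ℍ} (hz : z ∈ verticalStrip A B) (v : Fin 2 → ℤ) :
    ‖eisSummand k v z‖ ≤ r ⟨⟨A, B⟩, hB⟩ ^ (-k : ℝ) * ‖v‖ ^ (-k : ℝ) := by
  have hk' : (0 : ℝ) ≤ (k : ℝ) := by exact_mod_cast hk
  simpa only [eisSummand, one_div, ← _root_.zpow_neg, norm_zpow, ← Real.rpow_intCast,
    Int.cast_neg] using summand_bound_of_mem_verticalStrip hk' v hB hz

theorem norm_wEis_summand_le {k : ℤ} (hk : 0 ≤ k) {w : (Fin 2 → ℤ) → ℂ} (hw : ∀ v, ‖w v‖ ≤ 1)
    {A B : ℝ} (hB : 0 < B) {z : ℍ} (hz : z ∈ verticalStrip A B) (v : Fin 2 → ℤ) :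
    ‖w v * eisSummand k v z‖ ≤ r ⟨⟨A, B⟩, hB⟩ ^ (-k : ℝ) * ‖v‖ ^ (-k : ℝ) := by
  rw [norm_mul]
  exact (mul_le_of_le_one_left (norm_nonneg _) (hw v)).trans
    (eis_norm_eisSummand_le_of_mem_verticalStrip hk hB hz v)

theorem wEis_tendstoLocallyUniformly {k : ℤ} (hk : 3 ≤ k) {w : (Fin 2 → ℤ) → ℂ}
    (hw : ∀ v, ‖w v‖ ≤ 1) :
    TendstoLocallyUniformly (fun (s : Finset (Fin 2 → ℤ)) ↦ (∑ x ∈ s, w x * eisSummand k x ·))
      (wEis k w ·) Filter.atTop := by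
  have hk' : (2 : ℝ) < k := by norm_cast
  have p_sum : Summable fun x : Fin 2 → ℤ ↦ ‖x‖ ^ (-k : ℝ) := summable_one_div_norm_rpow hk'
  simp only [tendstoLocallyUniformly_iff_forall_isCompact, wEis]
  intro K hK
  obtain ⟨A, B, hB, HABK⟩ := subset_verticalStrip_of_isCompact hK
  refine (tendstoUniformlyOn_tsum (hu := p_sum.mul_left <| r ⟨⟨A, B⟩, hB⟩ ^ (-k : ℝ))
    (fun p z hz ↦ ?_)).mono HABK
  exact norm_wEis_summand_le (by omega) hw hB hz p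

theorem wEis_tendstoLocallyUniformlyOn {k : ℤ} (hk : 3 ≤ k) {w : (Fin 2 → ℤ) → ℂ}
    (hw : ∀ v, ‖w v‖ ≤ 1) :
    TendstoLocallyUniformlyOn (fun (s : Finset (Fin 2 → ℤ)) ↦
      ↑ₕ(fun (z : ℍ) ↦ ∑ x ∈ s, w x * eisSummand k x z)) (↑ₕ(wEis k w))
          Filter.atTop {z : ℂ | 0 < z.im} := by
  rw [← upperHalfPlaneSet, ← UpperHalfPlane.range_coe, ← Set.image_univ]
  apply TendstoLocallyUniformlyOn.comp (s := ⊤) _ _ _ (OpenPartialHomeomorph.continuousOn_symm _)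
  · simp only [Set.top_eq_univ, tendstoLocallyUniformlyOn_univ]
    exact wEis_tendstoLocallyUniformly hk hw
  · simp only [IsOpenEmbedding.toOpenPartialHomeomorph_target, Set.top_eq_univ,
      Set.mapsTo_range_iff, Set.mem_univ, forall_const]

/-- Weighted Eisenstein sums are holomorphic. -/
theorem wEis_mdifferentiable {k : ℤ} (hk : 3 ≤ k) {w : (Fin 2 → ℤ) → ℂ}
    (hw : ∀ v, ‖w v‖ ≤ 1) : MDiff (wEis k w) := by
  intro τ
  suffices DifferentiableAt ℂ (↑ₕ(wEis k w)) τ.1 by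
    convert!
      MDifferentiableAt.comp τ (DifferentiableAt.mdifferentiableAt this) τ.mdifferentiable_coe
    exact funext fun z ↦ (comp_ofComplex (wEis k w) z).symm
  refine DifferentiableOn.differentiableAt ?_ (isOpen_upperHalfPlaneSet.mem_nhds τ.2)
  refine (wEis_tendstoLocallyUniformlyOn hk hw).differentiableOn
    (Eventually.of_forall fun s ↦ ?_) isOpen_upperHalfPlaneSet
  have e : (↑ₕ(fun (z : ℍ) ↦ ∑ x ∈ s, w x * eisSummand k x z))
      = fun z : ℂ => ∑ x ∈ s, w x * (↑ₕ(eisSummand k x)) z := by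
    funext z
    simp
  rw [e]
  exact DifferentiableOn.fun_sum fun x _ ↦
    (eisSummand_extension_differentiableOn k x).const_mul (w x)

/-! ### The limit at `i∞` -/

/-- The tail: the sum of the norms of the summands with `v 0 ≠ 0`. -/
def eisTail (k : ℤ) (z : ℍ) : ℝ :=
  ∑' v : Fin 2 → ℤ, if v 0 = 0 then 0 else ‖eisSummand k v z‖

theorem eis_vecMul_T_zpow_zero (n : ℤ) (v : Fin 2 → ℤ) :
    (v ᵥ* (↑(ModularGroup.T ^ n) : Matrix (Fin 2) (Fin 2) ℤ)) 0 = v 0 := by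
  rw [ModularGroup.coe_T_zpow]
  simp [vecMul, dotProduct, Fin.sum_univ_two]

theorem eis_vecMul_T_zpow_one (n : ℤ) (v : Fin 2 → ℤ) :
    (v ᵥ* (↑(ModularGroup.T ^ n) : Matrix (Fin 2) (Fin 2) ℤ)) 1 = v 0 * n + v 1 := by
  rw [ModularGroup.coe_T_zpow]
  simp [vecMul, dotProduct, Fin.sum_univ_two]

theorem eis_eisSummand_T_zpow_smul (k n : ℤ) (v : Fin 2 → ℤ) (z : ℍ) :
    eisSummand k v (ModularGroup.T ^ n • z)
      = eisSummand k (v ᵥ* (↑(ModularGroup.T ^ n) : Matrix (Fin 2) (Fin 2) ℤ)) z := by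
  simp only [eisSummand, eis_vecMul_T_zpow_zero, eis_vecMul_T_zpow_one, ModularGroup.coe_T_zpow_smul_eq]
  congr 1
  push_cast
  ring

theorem eisTail_T_zpow_smul (k n : ℤ) (z : ℍ) :
    eisTail k (ModularGroup.T ^ n • z) = eisTail k z := by
  unfold eisTail
  rw [← (eisVecMulEquiv (ModularGroup.T ^ n)).tsum_eq
    (fun u : Fin 2 → ℤ => if u 0 = 0 then 0 else ‖eisSummand k u z‖)]
  refine tsum_congr fun v => ?_
  rw [eis_eisSummand_T_zpow_smul, eisVecMulEquiv_apply, eis_vecMul_T_zpow_zero]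

theorem eis_exists_T_zpow_mem_verticalStrip (z : ℍ) :
    ∃ n : ℤ, ModularGroup.T ^ n • z ∈ verticalStrip 1 z.im := by
  refine ⟨-⌊z.re⌋, ?_, ?_⟩
  · rw [ModularGroup.re_T_zpow_smul]
    push_cast
    rw [abs_le]
    constructor <;> linarith [Int.floor_le z.re, Int.lt_floor_add_one z.re]
  · rw [ModularGroup.im_T_zpow_smul]

theorem eis_norm_eisSummand_le_im {k : ℤ} (hk : 0 ≤ k) {v : Fin 2 → ℤ} (hv : v 0 ≠ 0) (z : ℍ) :
    ‖eisSummand k v z‖ ≤ (z.im ^ k)⁻¹ := by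
  have him : z.im ≤ ‖(v 0 : ℂ) * (z : ℂ) + v 1‖ := by
    have h1 : |((v 0 : ℂ) * (z : ℂ) + v 1).im| ≤ ‖(v 0 : ℂ) * (z : ℂ) + v 1‖ :=
      Complex.abs_im_le_norm _
    have h2 : ((v 0 : ℂ) * (z : ℂ) + v 1).im = (v 0 : ℝ) * z.im := by
      simp
    rw [h2, abs_mul, abs_of_pos z.im_pos] at h1
    have h3 : (1 : ℝ) ≤ |(v 0 : ℝ)| := by
      have : (1 : ℤ) ≤ |v 0| := Int.one_le_abs hv
      exact_mod_cast this
    nlinarith [z.im_pos]
  rw [eisSummand, _root_.zpow_neg, norm_inv, norm_zpow]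
  lift k to ℕ using hk
  simp only [zpow_natCast]
  exact inv_anti₀ (pow_pos z.im_pos _) (pow_le_pow_left₀ z.im_pos.le him _)

theorem tendsto_eisTail {k : ℤ} (hk : 3 ≤ k) : Tendsto (eisTail k) atImInfty (𝓝 0) := by
  have hk' : (2 : ℝ) < k := by norm_cast
  choose n hn using eis_exists_T_zpow_mem_verticalStrip
  have h1 : eisTail k = fun z => ∑' v : Fin 2 → ℤ,
      (if v 0 = 0 then 0 else ‖eisSummand k v (ModularGroup.T ^ n z • z)‖) :=
    funext fun z => (eisTail_T_zpow_smul k (n z) z).symm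
  rw [h1]
  have key := tendsto_tsum_of_dominated_convergence (𝓕 := atImInfty)
    (f := fun z (v : Fin 2 → ℤ) =>
      if v 0 = 0 then (0 : ℝ) else ‖eisSummand k v (ModularGroup.T ^ n z • z)‖)
    (g := fun _ => (0 : ℝ))
    (bound := fun v => r ⟨⟨1, 1⟩, one_pos⟩ ^ (-k : ℝ) * ‖v‖ ^ (-k : ℝ))
    ((summable_one_div_norm_rpow hk').mul_left _) ?_ ?_
  · simpa using key
  · intro v
    by_cases hv : v 0 = 0
    · simp [hv]
    · simp only [hv, if_false]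
      have hlim : Tendsto (fun z : ℍ => (z.im ^ k)⁻¹) atImInfty (𝓝 0) := by
        have h2 : Tendsto (fun x : ℝ => (x ^ k)⁻¹) atTop (𝓝 0) := by
          have := tendsto_zpow_atTop_zero (𝕜 := ℝ) (n := -k) (by omega)
          simpa [_root_.zpow_neg] using this
        exact h2.comp tendsto_comap
      refine squeeze_zero (fun _ => norm_nonneg _) (fun z => ?_) hlim
      have := eis_norm_eisSummand_le_im (k := k) (by omega) hv (ModularGroup.T ^ n z • z)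
      rwa [ModularGroup.im_T_zpow_smul] at this
  · rw [Filter.Eventually, atImInfty_mem]
    refine ⟨1, fun z hz v => ?_⟩
    have hmem : ModularGroup.T ^ n z • z ∈ verticalStrip 1 1 :=
      verticalStrip_anti_right 1 hz (hn z)
    have hb := eis_norm_eisSummand_le_of_mem_verticalStrip (k := k) (by omega) one_pos hmem v
    split_ifs
    · rw [norm_zero]
      exact mul_nonneg (Real.rpow_nonneg (r_pos _).le _) (Real.rpow_nonneg (norm_nonneg _) _)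
    · rwa [norm_norm]

/-- The limit of a weighted Eisenstein sum at `i∞`: only the terms with `v 0 = 0` survive. -/
theorem wEis_tendsto {k : ℤ} (hk : 3 ≤ k) {w : (Fin 2 → ℤ) → ℂ} (hw : ∀ v, ‖w v‖ ≤ 1) :
    Tendsto (wEis k w) atImInfty
      (𝓝 (∑' v : Fin 2 → ℤ, if v 0 = 0 then w v * ((v 1 : ℤ) : ℂ) ^ (-k) else 0)) := by
  rw [tendsto_iff_norm_sub_tendsto_zero]
  refine squeeze_zero (fun _ => norm_nonneg _) (fun z => ?_) (tendsto_eisTail hk)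
  have hs1 := summable_wEis hk hw z
  have hL : (fun v : Fin 2 → ℤ => if v 0 = 0 then w v * ((v 1 : ℤ) : ℂ) ^ (-k) else 0)
      = fun v => if v 0 = 0 then w v * eisSummand k v z else 0 := by
    funext v
    split_ifs with h
    · simp [eisSummand, h]
    · rfl
  have hs2 : Summable (fun v : Fin 2 → ℤ => if v 0 = 0 then w v * eisSummand k v z else 0) :=
    Summable.of_norm_bounded (summable_norm_eisSummand hk z) (fun v => by
      split_ifs
      · rw [norm_mul]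
        exact mul_le_of_le_one_left (norm_nonneg _) (hw v)
      · simp)
  rw [hL, wEis, ← hs1.tsum_sub hs2]
  have e : ∀ v : Fin 2 → ℤ, w v * eisSummand k v z
      - (if v 0 = 0 then w v * eisSummand k v z else 0)
      = if v 0 = 0 then 0 else w v * eisSummand k v z := by
    intro v
    split_ifs <;> simp
  simp_rw [e]
  have hs3 : Summable (fun v : Fin 2 → ℤ => if v 0 = 0 then 0 else ‖eisSummand k v z‖) :=
    Summable.of_nonneg_of_le (fun v => by split_ifs <;> simp)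
      (fun v => by split_ifs <;> simp) (summable_norm_eisSummand hk z)
  have hle : ∀ v : Fin 2 → ℤ, ‖(if v 0 = 0 then 0 else w v * eisSummand k v z)‖
      ≤ if v 0 = 0 then 0 else ‖eisSummand k v z‖ := by
    intro v
    split_ifs
    · simp
    · rw [norm_mul]
      exact mul_le_of_le_one_left (norm_nonneg _) (hw v)
  have hs4 : Summable (fun v : Fin 2 → ℤ => ‖(if v 0 = 0 then 0 else w v * eisSummand k v z)‖) :=
    Summable.of_nonneg_of_le (fun v => norm_nonneg _) hle hs3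
  exact (norm_tsum_le_tsum_norm hs4).trans (hs4.tsum_le_tsum hle hs3)

/-- Weighted Eisenstein sums are bounded at `i∞`. -/
theorem wEis_isBoundedAtImInfty {k : ℤ} (hk : 3 ≤ k) {w : (Fin 2 → ℤ) → ℂ}
    (hw : ∀ v, ‖w v‖ ≤ 1) : IsBoundedAtImInfty (wEis k w) :=
  (wEis_tendsto hk hw).isBigO_one ℝ

end Fermat.Agent.F3I2
end
end MergeWrap_F3_I2_EisWeighted

section MergeWrap_F3_I2_EisChar -- from F3/I2/EisChar.lean

set_option autoImplicit false

noncomputable section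

namespace Fermat.Agent.F3I2

open UpperHalfPlane Filter Topology CongruenceSubgroup EisensteinSeries Matrix ModularForm
open scoped MatrixGroups Manifold ModularForm

/-- The weight of the bottom row `v`: `χ(γ)⁻¹ / 2` if `v` is the bottom row of `γ ∈ Γ₀(N)`,
and `0` if `v` is not a bottom row. -/
def eisCharWeight (N : ℕ) (χ : ↥(Gamma0 N) →* ℂˣ) (v : Fin 2 → ℤ) : ℂ :=
  open Classical in
  if h : ∃ γ : ↥(Gamma0 N), (γ : SL(2, ℤ)) 1 = v then (((χ h.choose)⁻¹ : ℂˣ) : ℂ) / 2 else 0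

/-- The Eisenstein series of weight `k` and character `χ` on `Γ₀(N)`. -/
def eisChar (N : ℕ) (k : ℤ) (χ : ↥(Gamma0 N) →* ℂˣ) (z : ℍ) : ℂ :=
  ∑' v : Fin 2 → ℤ, eisCharWeight N χ v * eisSummand k v z

theorem eisChar_eq_wEis (N : ℕ) (k : ℤ) (χ : ↥(Gamma0 N) →* ℂˣ) :
    eisChar N k χ = wEis k (eisCharWeight N χ) := rfl

variable {N : ℕ} {k : ℤ}

theorem norm_eisCharWeight_le (χ : ↥(Gamma0 N) →* ℂˣ)
    (hχ : ∀ γ, ‖((χ γ : ℂˣ) : ℂ)‖ = 1) (v : Fin 2 → ℤ) : ‖eisCharWeight N χ v‖ ≤ 1 := by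
  unfold eisCharWeight
  split_ifs with h
  · rw [norm_div, Units.val_inv_eq_inv_val, norm_inv, hχ]
    norm_num
  · simp

theorem eis_sl2_mul_inv_row (γ δ : SL(2, ℤ)) :
    (γ * δ⁻¹) 1 0 = γ 1 0 * δ 1 1 - γ 1 1 * δ 1 0 := by
  rw [Matrix.SpecialLinearGroup.SL2_inv_expl]
  show ((γ : Matrix (Fin 2) (Fin 2) ℤ) *
    (Matrix.of ![![δ.1 1 1, -δ.1 0 1], ![-δ.1 1 0, δ.1 0 0]] : Matrix (Fin 2) (Fin 2) ℤ)) 1 0 = _
  rw [Matrix.mul_apply, Fin.sum_univ_two]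
  simp
  ring

/-- Two elements of `Γ₀(N)` with the same bottom row have the same value under `χ`. -/
theorem eisChar_chi_eq_of_row_eq (χ : ↥(Gamma0 N) →* ℂˣ)
    (hinf : ∀ γ : ↥(Gamma0 N), (γ : SL(2, ℤ)) 1 0 = 0 → χ γ = 1) (γ δ : ↥(Gamma0 N))
    (h : (γ : SL(2, ℤ)) 1 = (δ : SL(2, ℤ)) 1) : χ γ = χ δ := by
  have h1 : χ (γ * δ⁻¹) = 1 := by
    apply hinf
    have e : ((γ * δ⁻¹ : ↥(Gamma0 N)) : SL(2, ℤ)) = (γ : SL(2, ℤ)) * (δ : SL(2, ℤ))⁻¹ := by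
      simp
    rw [e, eis_sl2_mul_inv_row]
    have h0 := congrFun h 0
    have h1 := congrFun h 1
    rw [h0, h1]
    ring
  rw [map_mul, map_inv, mul_inv_eq_one] at h1
  exact h1

theorem eisCharWeight_row (χ : ↥(Gamma0 N) →* ℂˣ)
    (hinf : ∀ γ : ↥(Gamma0 N), (γ : SL(2, ℤ)) 1 0 = 0 → χ γ = 1) (δ : ↥(Gamma0 N)) :
    eisCharWeight N χ ((δ : SL(2, ℤ)) 1) = (((χ δ)⁻¹ : ℂˣ) : ℂ) / 2 := by
  have h : ∃ γ : ↥(Gamma0 N), (γ : SL(2, ℤ)) 1 = (δ : SL(2, ℤ)) 1 := ⟨δ, rfl⟩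
  unfold eisCharWeight
  rw [dif_pos h, eisChar_chi_eq_of_row_eq χ hinf _ δ h.choose_spec]

theorem eisCharWeight_of_not_row (χ : ↥(Gamma0 N) →* ℂˣ) {v : Fin 2 → ℤ}
    (h : ¬ ∃ γ : ↥(Gamma0 N), (γ : SL(2, ℤ)) 1 = v) : eisCharWeight N χ v = 0 := by
  unfold eisCharWeight
  rw [dif_neg h]

theorem eis_row_mul_eq (γ δ : SL(2, ℤ)) :
    (γ * δ) 1 = (γ 1) ᵥ* (↑δ : Matrix (Fin 2) (Fin 2) ℤ) := by
  funext j
  simp [Matrix.SpecialLinearGroup.coe_mul, Matrix.mul_apply, Matrix.vecMul, dotProduct]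

theorem eisCharWeight_vecMul (χ : ↥(Gamma0 N) →* ℂˣ)
    (hinf : ∀ γ : ↥(Gamma0 N), (γ : SL(2, ℤ)) 1 0 = 0 → χ γ = 1) (γ : ↥(Gamma0 N))
    (v : Fin 2 → ℤ) :
    eisCharWeight N χ (v ᵥ* (↑((γ : SL(2, ℤ))⁻¹) : Matrix (Fin 2) (Fin 2) ℤ))
      = ((χ γ : ℂˣ) : ℂ) * eisCharWeight N χ v := by
  by_cases h : ∃ δ : ↥(Gamma0 N), (δ : SL(2, ℤ)) 1 = v
  · obtain ⟨δ, rfl⟩ := h
    have e : ((δ : SL(2, ℤ)) 1) ᵥ* (↑((γ : SL(2, ℤ))⁻¹) : Matrix (Fin 2) (Fin 2) ℤ)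
        = ((δ * γ⁻¹ : ↥(Gamma0 N)) : SL(2, ℤ)) 1 := by
      rw [← eis_row_mul_eq]
      simp
    rw [e, eisCharWeight_row χ hinf, eisCharWeight_row χ hinf, map_mul, map_inv]
    simp only [_root_.mul_inv_rev, inv_inv, Units.val_mul]
    ring
  · have h' : ¬ ∃ δ : ↥(Gamma0 N),
        (δ : SL(2, ℤ)) 1 = v ᵥ* (↑((γ : SL(2, ℤ))⁻¹) : Matrix (Fin 2) (Fin 2) ℤ) := by
      rintro ⟨δ, hδ⟩
      apply h
      refine ⟨δ * γ, ?_⟩
      have : ((δ * γ : ↥(Gamma0 N)) : SL(2, ℤ)) 1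
          = ((δ : SL(2, ℤ)) 1) ᵥ* (↑(γ : SL(2, ℤ)) : Matrix (Fin 2) (Fin 2) ℤ) := by
        rw [← eis_row_mul_eq]
        simp
      rw [this, hδ, eis_vecMul_inv_vecMul]
    rw [eisCharWeight_of_not_row χ h, eisCharWeight_of_not_row χ h', mul_zero]

/-! ### The four properties -/

theorem eisChar_mdifferentiable (hk : 3 ≤ k) (χ : ↥(Gamma0 N) →* ℂˣ)
    (hχ : ∀ γ, ‖((χ γ : ℂˣ) : ℂ)‖ = 1) : MDiff (eisChar N k χ) :=
  wEis_mdifferentiable hk (norm_eisCharWeight_le χ hχ)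

theorem eisChar_slash (χ : ↥(Gamma0 N) →* ℂˣ)
    (hinf : ∀ γ : ↥(Gamma0 N), (γ : SL(2, ℤ)) 1 0 = 0 → χ γ = 1) (γ : ↥(Gamma0 N)) :
    eisChar N k χ ∣[k] (γ : SL(2, ℤ)) = ((χ γ : ℂˣ) : ℂ) • eisChar N k χ := by
  rw [eisChar_eq_wEis, wEis_slash]
  funext z
  simp only [wEis, Pi.smul_apply, smul_eq_mul, eisCharWeight_vecMul χ hinf γ, mul_assoc]
  rw [tsum_mul_left]

theorem eisChar_isBoundedAtImInfty_slash (hk : 3 ≤ k) (χ : ↥(Gamma0 N) →* ℂˣ)
    (hχ : ∀ γ, ‖((χ γ : ℂˣ) : ℂ)‖ = 1) (g : SL(2, ℤ)) :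
    IsBoundedAtImInfty (eisChar N k χ ∣[k] g) := by
  rw [eisChar_eq_wEis, wEis_slash]
  exact wEis_isBoundedAtImInfty hk (fun v => norm_eisCharWeight_le χ hχ _)

/-! ### The limit at `i∞` -/

theorem eis_sl2_row_one_eq_of_zero (γ : SL(2, ℤ)) (h : γ 1 0 = 0) : γ 1 1 = 1 ∨ γ 1 1 = -1 := by
  have hdet := Matrix.SpecialLinearGroup.det_coe γ
  rw [Matrix.det_fin_two] at hdet
  have h' : (γ : Matrix (Fin 2) (Fin 2) ℤ) 1 0 = 0 := h
  rw [h', mul_zero, sub_zero] at hdet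
  exact Int.isUnit_iff.mp (IsUnit.of_mul_eq_one _ (by rw [mul_comm]; exact hdet))

theorem eisCharWeight_zero_one (χ : ↥(Gamma0 N) →* ℂˣ)
    (hinf : ∀ γ : ↥(Gamma0 N), (γ : SL(2, ℤ)) 1 0 = 0 → χ γ = 1) :
    eisCharWeight N χ ![0, 1] = 1 / 2 := by
  have e : ((1 : ↥(Gamma0 N)) : SL(2, ℤ)) 1 = ![0, 1] := by
    funext i
    fin_cases i <;> simp
  rw [← e, eisCharWeight_row χ hinf, map_one]
  simp

theorem eis_neg_one_mem_Gamma0 (N : ℕ) : (-1 : SL(2, ℤ)) ∈ Gamma0 N := by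
  rw [Gamma0_mem]
  simp

theorem eisCharWeight_zero_neg_one (χ : ↥(Gamma0 N) →* ℂˣ)
    (hinf : ∀ γ : ↥(Gamma0 N), (γ : SL(2, ℤ)) 1 0 = 0 → χ γ = 1) :
    eisCharWeight N χ ![0, -1] = 1 / 2 := by
  have e : ((⟨-1, eis_neg_one_mem_Gamma0 N⟩ : ↥(Gamma0 N)) : SL(2, ℤ)) 1 = ![0, -1] := by
    funext i
    fin_cases i <;> simp
  have h1 : χ ⟨-1, eis_neg_one_mem_Gamma0 N⟩ = 1 := hinf _ (by simp)
  rw [← e, eisCharWeight_row χ hinf, h1]
  simp

theorem eisCharWeight_eq_zero_of (χ : ↥(Gamma0 N) →* ℂˣ) {v : Fin 2 → ℤ} (h0 : v 0 = 0)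
    (h1 : v ≠ ![0, 1]) (h2 : v ≠ ![0, -1]) : eisCharWeight N χ v = 0 := by
  apply eisCharWeight_of_not_row
  rintro ⟨γ, rfl⟩
  rcases eis_sl2_row_one_eq_of_zero (γ : SL(2, ℤ)) h0 with h | h
  · apply h1
    funext i
    fin_cases i
    · exact h0
    · exact h
  · apply h2
    funext i
    fin_cases i
    · exact h0
    · exact h

theorem eisChar_limit_eq_one (hk2 : Even k) (χ : ↥(Gamma0 N) →* ℂˣ)
    (hinf : ∀ γ : ↥(Gamma0 N), (γ : SL(2, ℤ)) 1 0 = 0 → χ γ = 1) :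
    (∑' v : Fin 2 → ℤ, if v 0 = 0 then eisCharWeight N χ v * ((v 1 : ℤ) : ℂ) ^ (-k) else 0)
      = 1 := by
  classical
  have hne : (![0, 1] : Fin 2 → ℤ) ≠ ![0, -1] := by
    intro h
    have := congrFun h 1
    simp at this
  rw [tsum_eq_sum (s := {![0, 1], ![0, -1]})]
  · rw [Finset.sum_pair hne]
    simp only [Matrix.cons_val_zero, Matrix.cons_val_one, if_true,
      eisCharWeight_zero_one χ hinf, eisCharWeight_zero_neg_one χ hinf]
    have h1 : ((1 : ℤ) : ℂ) ^ (-k) = 1 := by simp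
    have h2 : ((-1 : ℤ) : ℂ) ^ (-k) = 1 := by
      push_cast
      exact hk2.neg.neg_one_zpow
    rw [h1, h2]
    norm_num
  · intro v hv
    simp only [Finset.mem_insert, Finset.mem_singleton, not_or] at hv
    split_ifs with h0
    · rw [eisCharWeight_eq_zero_of χ h0 hv.1 hv.2, zero_mul]
    · rfl

theorem eisChar_tendsto (hk : 3 ≤ k) (hk2 : Even k) (χ : ↥(Gamma0 N) →* ℂˣ)
    (hχ : ∀ γ, ‖((χ γ : ℂˣ) : ℂ)‖ = 1)
    (hinf : ∀ γ : ↥(Gamma0 N), (γ : SL(2, ℤ)) 1 0 = 0 → χ γ = 1) :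
    Tendsto (eisChar N k χ) atImInfty (𝓝 1) := by
  have h := wEis_tendsto hk (norm_eisCharWeight_le χ hχ)
  rw [eisChar_limit_eq_one hk2 χ hinf] at h
  exact h

/-- A character with values in roots of unity has absolute value one. -/
theorem eisChar_norm_eq_one_of_pow (χ : ↥(Gamma0 N) →* ℂˣ) {n : ℕ} (hn : n ≠ 0)
    (h : ∀ γ, χ γ ^ n = 1) : ∀ γ, ‖((χ γ : ℂˣ) : ℂ)‖ = 1 := by
  intro γ
  have h1 : ((χ γ : ℂˣ) : ℂ) ^ n = 1 := by
    rw [← Units.val_pow_eq_pow_val, h γ, Units.val_one]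
  exact Complex.norm_eq_one_of_pow_eq_one h1 hn

/-- The series does not vanish identically. -/
theorem eisChar_ne_zero (hk : 3 ≤ k) (hk2 : Even k) (χ : ↥(Gamma0 N) →* ℂˣ)
    (hχ : ∀ γ, ‖((χ γ : ℂˣ) : ℂ)‖ = 1)
    (hinf : ∀ γ : ↥(Gamma0 N), (γ : SL(2, ℤ)) 1 0 = 0 → χ γ = 1) :
    eisChar N k χ ≠ 0 := by
  intro h0
  have h := eisChar_tendsto hk hk2 χ hχ hinf
  rw [h0] at h
  have h' : Tendsto (0 : ℍ → ℂ) atImInfty (𝓝 0) := tendsto_const_nhds
  exact one_ne_zero (tendsto_nhds_unique h h')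

end Fermat.Agent.F3I2

namespace Fermat.Agent.F3.EisChar

open UpperHalfPlane Filter Topology CongruenceSubgroup ModularForm
open scoped MatrixGroups Manifold ModularForm

/-- A3b, in the shape requested by helper43: existence of the Eisenstein series with character. -/
theorem exists_eisenstein_character {N : ℕ} [NeZero N] (χ : ↥(Gamma0 N) →* ℂˣ)
    (hχ1 : ∀ γ, ‖(χ γ : ℂ)‖ = 1)
    (hχinf : ∀ γ : ↥(Gamma0 N), (γ : SL(2, ℤ)) 1 0 = 0 → χ γ = 1)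
    (k : ℤ) (hk : 3 ≤ k) (hk2 : Even k) :
    ∃ E : ℍ → ℂ, MDiff E ∧
      (∀ γ : ↥(Gamma0 N), E ∣[k] (γ : SL(2, ℤ)) = (χ γ : ℂ) • E) ∧
      Tendsto E atImInfty (𝓝 1) ∧
      (∀ g : SL(2, ℤ), IsBoundedAtImInfty (E ∣[k] g)) :=
  ⟨Fermat.Agent.F3I2.eisChar N k χ,
    Fermat.Agent.F3I2.eisChar_mdifferentiable hk χ hχ1,
    Fermat.Agent.F3I2.eisChar_slash χ hχinf,
    Fermat.Agent.F3I2.eisChar_tendsto hk hk2 χ hχ1 hχinf,
    Fermat.Agent.F3I2.eisChar_isBoundedAtImInfty_slash hk χ hχ1⟩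

end Fermat.Agent.F3.EisChar
end
end MergeWrap_F3_I2_EisChar

section MergeWrap_F3_I2_FormChar -- from F3/I2/FormChar.lean

set_option autoImplicit false

noncomputable section

namespace Fermat.Agent.F3I2

open UpperHalfPlane CongruenceSubgroup Filter Topology
open scoped MatrixGroups ModularForm Manifold
open P2MW.S_ModularForm_heckeT_slash_eq_self_of_mem_Gamma0.ModularForm.HeckeSlashInvariance
open Fermat.Agent.F3EC

/-- Modular form of weight `w` and character `χ` on `Γ₀(N)` (unbundled). -/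
structure IsFormChar (N : ℕ) (w : ℤ) (χ : ↥(Gamma0 N) →* ℂˣ) (f : ℍ → ℂ) : Prop where
  mdiff : MDiff f
  slash : ∀ γ : ↥(Gamma0 N), f ∣[w] (γ : SL(2, ℤ)) = ((χ γ : ℂˣ) : ℂ) • f
  bdd : ∀ g : SL(2, ℤ), IsBoundedAtImInfty (f ∣[w] g)

variable {N : ℕ}

theorem IsFormChar.mul {w w' : ℤ} {χ χ' : ↥(Gamma0 N) →* ℂˣ} {f f' : ℍ → ℂ}
    (hf : IsFormChar N w χ f) (hf' : IsFormChar N w' χ' f') :
    IsFormChar N (w + w') (χ * χ') (f * f') := by
  refine ⟨hf.mdiff.mul hf'.mdiff, fun γ => ?_, fun g => ?_⟩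
  · rw [ModularForm.mul_slash_SL2, hf.slash, hf'.slash]
    funext z
    simp only [Pi.mul_apply, Pi.smul_apply, smul_eq_mul, MonoidHom.mul_apply, Units.val_mul]
    ring
  · rw [ModularForm.mul_slash_SL2]
    exact (hf.bdd g).mul (hf'.bdd g)

theorem isFormChar_one : IsFormChar N 0 1 (1 : ℍ → ℂ) := by
  refine ⟨mdifferentiable_const, fun γ => ?_, fun g => ?_⟩
  · rw [ModularForm.is_invariant_one]
    simp
  · rw [ModularForm.is_invariant_one]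
    exact const_boundedAtFilter _ _

theorem IsFormChar.pow {w : ℤ} {χ : ↥(Gamma0 N) →* ℂˣ} {f : ℍ → ℂ}
    (hf : IsFormChar N w χ f) (n : ℕ) : IsFormChar N (n * w) (χ ^ n) (f ^ n) := by
  induction n with
  | zero =>
    have e : ((0 : ℕ) : ℤ) * w = 0 := by simp
    rw [e, pow_zero χ, pow_zero f]
    exact isFormChar_one
  | succ n ih =>
    have e : ((n + 1 : ℕ) : ℤ) * w = n * w + w := by push_cast; ring
    rw [e, pow_succ χ, pow_succ f]
    exact ih.mul hf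

/-- A modular form on `Γ₀(N)` is a form with trivial character. -/
theorem isFormChar_of_modularForm [NeZero N] {w : ℤ} (A : ModularForm (Gamma0 N) w) :
    IsFormChar N w 1 (⇑A) := by
  refine ⟨ModularFormClass.holo A, fun γ => ?_, fun g => ?_⟩
  · have h := SlashInvariantForm.slash_action_eqn A
      (Matrix.SpecialLinearGroup.mapGL ℝ (γ : SL(2, ℤ)))
      (Subgroup.mem_map_of_mem _ γ.2)
    have h' : (⇑A) ∣[w] (γ : SL(2, ℤ)) = ⇑A := h
    rw [h']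
    simp
  · have hc : IsCusp (Matrix.SpecialLinearGroup.mapGL ℝ g • (OnePoint.infty : OnePoint ℝ))
        ((Gamma0 N : Subgroup SL(2, ℤ)) : Subgroup (GL (Fin 2) ℝ)) := by
      rw [Subgroup.IsArithmetic.isCusp_iff_isCusp_SL2Z]
      exact isCusp_SL2Z_iff'.mpr ⟨g, rfl⟩
    have hb := ModularFormClass.bdd_at_cusps A hc
    exact hb _ rfl

/-- A form with trivial character is (the function underlying) a modular form on `Γ₀(N)`. -/
theorem IsFormChar.exists_modularForm {w : ℤ} {f : ℍ → ℂ} (hf : IsFormChar N w 1 f) :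
    ∃ A : ModularForm (Gamma0 N) w, ⇑A = f := by
  refine ⟨{ toFun := f
            slash_action_eq' := ?_
            holo' := hf.mdiff
            bdd_at_cusps' := ?_ }, rfl⟩
  · rintro _ ⟨γ, hγ, rfl⟩
    have h2 : f ∣[w] γ = f := by simpa using hf.slash ⟨γ, hγ⟩
    exact h2
  · intro c hc
    have hc' : IsCusp c 𝒮ℒ := hc.mono (Subgroup.map_le_range _ _)
    rw [OnePoint.isBoundedAt_iff_forall_SL2Z hc']
    intro γ _
    exact hf.bdd γ

/-- helper54's Eisenstein series with character is a form with character. -/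
theorem isFormChar_eisChar [NeZero N] (χ : ↥(Gamma0 N) →* ℂˣ)
    (hχ1 : ∀ γ, ‖((χ γ : ℂˣ) : ℂ)‖ = 1)
    (hχinf : ∀ γ : ↥(Gamma0 N), (γ : SL(2, ℤ)) 1 0 = 0 → χ γ = 1)
    (k : ℤ) (hk : 3 ≤ k) : IsFormChar N k χ (eisChar N k χ) :=
  ⟨eisChar_mdifferentiable hk χ hχ1, eisChar_slash χ hχinf,
    eisChar_isBoundedAtImInfty_slash hk χ hχ1⟩

theorem fc_heckeCoset_one {ℓ : ℕ} [Fact ℓ.Prime] (hℓN : ¬ ℓ ∣ N) (x : OnePoint (ZMod ℓ)) :
    heckeCoset hℓN (1 : ↥(Gamma0 N)) x = 1 := by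
  symm
  apply heckeCoset_unique
  simp [redMatrix_one]

/-- The Hecke transfer of a character: `(T_ℓ χ)(γ) = ∏_x χ(γ_x)`, `α_x γ = γ_x α_{γ̄ x}`. -/
def heckeTransfer {ℓ : ℕ} [Fact ℓ.Prime] (hℓN : ¬ ℓ ∣ N) (χ : ↥(Gamma0 N) →* ℂˣ) :
    ↥(Gamma0 N) →* ℂˣ where
  toFun γ := ∏ x : OnePoint (ZMod ℓ), χ (heckeCoset hℓN γ x)
  map_one' := by
    simp [fc_heckeCoset_one]
  map_mul' := by
    intro γ δ
    have hperm : ∏ x : OnePoint (ZMod ℓ), χ (heckeCoset hℓN δ (redMatrix ℓ (γ : SL(2, ℤ)) • x)) =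
        ∏ x : OnePoint (ZMod ℓ), χ (heckeCoset hℓN δ x) :=
      Equiv.prod_comp (MulAction.toPerm (redMatrix ℓ (γ : SL(2, ℤ))))
        (fun x => χ (heckeCoset hℓN δ x))
    rw [← hperm, ← Finset.prod_mul_distrib]
    refine Finset.prod_congr rfl fun x _ => ?_
    rw [heckeCoset_mul, map_mul]

theorem heckeTransfer_apply {ℓ : ℕ} [Fact ℓ.Prime] (hℓN : ¬ ℓ ∣ N) (χ : ↥(Gamma0 N) →* ℂˣ)
    (γ : ↥(Gamma0 N)) :
    heckeTransfer hℓN χ γ = ∏ x : OnePoint (ZMod ℓ), χ (heckeCoset hℓN γ x) := rfl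

/-! ### Slash of finite products -/

theorem fc_prod_slash_SL2 {ι : Type*} (s : Finset ι) (w : ℤ) (F : ι → ℍ → ℂ) (A : SL(2, ℤ)) :
    (∏ i ∈ s, F i) ∣[w * (s.card : ℤ)] A = ∏ i ∈ s, (F i ∣[w] A) := by
  classical
  induction s using Finset.induction_on with
  | empty =>
    simp only [Finset.prod_empty, Finset.card_empty, Nat.cast_zero, mul_zero]
    exact ModularForm.is_invariant_one A
  | insert a s ha ih =>
    rw [Finset.prod_insert ha, Finset.prod_insert ha, Finset.card_insert_of_notMem ha]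
    have e : w * ((s.card + 1 : ℕ) : ℤ) = w + w * (s.card : ℤ) := by push_cast; ring
    rw [e, ModularForm.mul_slash_SL2, ih]

theorem fc_card_onePoint_zmod (ℓ : ℕ) [Fact ℓ.Prime] :
    (Finset.univ : Finset (OnePoint (ZMod ℓ))).card = ℓ + 1 := by
  rw [Finset.card_univ]
  show Fintype.card (Option (ZMod ℓ)) = ℓ + 1
  rw [Fintype.card_option, ZMod.card]

theorem fc_heckeRep_one_zero (ℓ : ℕ) [Fact ℓ.Prime] (x : OnePoint (ZMod ℓ)) :
    (heckeRep ℓ x : GL (Fin 2) ℝ) 1 0 = 0 := by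
  have hℓ : ℓ ≠ 0 := (Fact.out : ℓ.Prime).ne_zero
  induction x using OnePoint.rec with
  | infty => simp [heckeRep_infty, ModularForm.heckeDiagMatrix, hℓ, ModularForm.upperTriangularGL]
  | coe j => simp [heckeRep_coe, ModularForm.heckeMatrix, hℓ, ModularForm.upperTriangularGL]

theorem fc_heckeRep_det_pos (ℓ : ℕ) [Fact ℓ.Prime] (x : OnePoint (ZMod ℓ)) :
    0 < (heckeRep ℓ x : GL (Fin 2) ℝ).det.val := by
  have hℓ : ℓ ≠ 0 := (Fact.out : ℓ.Prime).ne_zero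
  have hpos : (0 : ℝ) < ℓ := by exact_mod_cast Nat.pos_of_ne_zero hℓ
  induction x using OnePoint.rec with
  | infty =>
    simp [heckeRep_infty, ModularForm.heckeDiagMatrix, hℓ, ModularForm.upperTriangularGL,
      Matrix.GeneralLinearGroup.val_det_apply, Matrix.det_fin_two, hpos]
  | coe j =>
    simp [heckeRep_coe, ModularForm.heckeMatrix, hℓ, ModularForm.upperTriangularGL,
      Matrix.GeneralLinearGroup.val_det_apply, Matrix.det_fin_two, hpos]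

theorem fc_smul_slash_heckeRep (ℓ : ℕ) [Fact ℓ.Prime] (x : OnePoint (ZMod ℓ)) (w : ℤ) (c : ℂ)
    (f : ℍ → ℂ) : (c • f) ∣[w] heckeRep ℓ x = c • (f ∣[w] heckeRep ℓ x) := by
  rw [ModularForm.smul_slash]
  congr 1
  have h := fc_heckeRep_det_pos ℓ x
  rw [Matrix.GeneralLinearGroup.val_det_apply] at h
  simp [UpperHalfPlane.σ, h]

theorem IsFormChar.slash_heckeRep_mul {ℓ : ℕ} [Fact ℓ.Prime] (hℓN : ¬ ℓ ∣ N) {w : ℤ}
    {χ : ↥(Gamma0 N) →* ℂˣ} {f : ℍ → ℂ} (hf : IsFormChar N w χ f) (γ : ↥(Gamma0 N))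
    (x : OnePoint (ZMod ℓ)) :
    (f ∣[w] heckeRep ℓ x) ∣[w] (γ : SL(2, ℤ))
      = ((χ (heckeCoset hℓN γ x) : ℂˣ) : ℂ) •
        (f ∣[w] heckeRep ℓ (redMatrix ℓ (γ : SL(2, ℤ)) • x)) := by
  have h1 : (f ∣[w] heckeRep ℓ x) ∣[w] (γ : SL(2, ℤ))
      = f ∣[w] (heckeRep ℓ x * Matrix.SpecialLinearGroup.mapGL ℝ (γ : SL(2, ℤ))) := by
    rw [SlashAction.slash_mul]
    rfl
  rw [h1, heckeCoset_spec hℓN γ x, SlashAction.slash_mul]
  have h2 : f ∣[w] (Matrix.SpecialLinearGroup.mapGL ℝ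
      ((heckeCoset hℓN γ x : ↥(Gamma0 N)) : SL(2, ℤ)))
      = ((χ (heckeCoset hℓN γ x) : ℂˣ) : ℂ) • f := hf.slash (heckeCoset hℓN γ x)
  rw [h2, fc_smul_slash_heckeRep]

theorem IsFormChar.bdd_slash_heckeRep {ℓ : ℕ} [Fact ℓ.Prime] {w : ℤ}
    {χ : ↥(Gamma0 N) →* ℂˣ} {f : ℍ → ℂ} (hf : IsFormChar N w χ f) (g : SL(2, ℤ))
    (x : OnePoint (ZMod ℓ)) :
    IsBoundedAtImInfty ((f ∣[w] heckeRep ℓ x) ∣[w] g) := by
  have h1 : (f ∣[w] heckeRep ℓ x) ∣[w] g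
      = f ∣[w] (heckeRep ℓ x * Matrix.SpecialLinearGroup.mapGL ℝ g) := by
    rw [SlashAction.slash_mul]
    rfl
  have hℓ1 : ¬ ℓ ∣ 1 := fun h => (Fact.out : ℓ.Prime).one_lt.ne' (Nat.dvd_one.mp h)
  obtain ⟨g', -, hmul⟩ := heckeRep_mul (N := 1) hℓ1 g (by simp) x
  rw [h1, hmul, SlashAction.slash_mul]
  exact IsBoundedAtImInfty.slash w (fc_heckeRep_one_zero ℓ _) (hf.bdd g')

theorem fc_isBoundedAtImInfty_prod {ι : Type*} (s : Finset ι) (F : ι → ℍ → ℂ)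
    (h : ∀ i ∈ s, IsBoundedAtImInfty (F i)) : IsBoundedAtImInfty (∏ i ∈ s, F i) := by
  classical
  induction s using Finset.induction_on with
  | empty =>
    simp only [Finset.prod_empty]
    exact const_boundedAtFilter _ (1 : ℂ)
  | insert a s ha ih =>
    rw [Finset.prod_insert ha]
    exact (h a (Finset.mem_insert_self a s)).mul
      (ih fun i hi => h i (Finset.mem_insert_of_mem hi))

theorem fc_mdifferentiable_prod {ι : Type*} (s : Finset ι) (F : ι → ℍ → ℂ)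
    (h : ∀ i ∈ s, MDiff (F i)) : MDiff (∏ i ∈ s, F i) := by
  classical
  induction s using Finset.induction_on with
  | empty =>
    simp only [Finset.prod_empty]
    exact mdifferentiable_const
  | insert a s ha ih =>
    rw [Finset.prod_insert ha]
    exact (h a (Finset.mem_insert_self a s)).mul
      (ih fun i hi => h i (Finset.mem_insert_of_mem hi))

/-- The product of the `ℓ + 1` Hecke translates of a form with character `χ` is a form with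
character `T_ℓ χ` (weight `w * (ℓ + 1)`). -/
theorem IsFormChar.heckeProd {ℓ : ℕ} [Fact ℓ.Prime] (hℓN : ¬ ℓ ∣ N) {w : ℤ}
    {χ : ↥(Gamma0 N) →* ℂˣ} {f : ℍ → ℂ} (hf : IsFormChar N w χ f) :
    IsFormChar N (w * (ℓ + 1)) (heckeTransfer hℓN χ)
      (fun z => ∏ i : OnePoint (ZMod ℓ), (f ∣[w] heckeRep ℓ i) z) := by
  have e : (fun z => ∏ i : OnePoint (ZMod ℓ), (f ∣[w] heckeRep ℓ i) z)
      = ∏ i : OnePoint (ZMod ℓ), (f ∣[w] heckeRep ℓ i) := by
    funext z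
    rw [Finset.prod_apply]
  have hw : w * ((ℓ : ℤ) + 1) = w * ((Finset.univ : Finset (OnePoint (ZMod ℓ))).card : ℤ) := by
    rw [fc_card_onePoint_zmod]
    push_cast
    ring
  rw [e, hw]
  refine ⟨fc_mdifferentiable_prod _ _ fun i _ => hf.mdiff.slash w _, fun γ => ?_, fun g => ?_⟩
  · rw [fc_prod_slash_SL2]
    simp_rw [hf.slash_heckeRep_mul hℓN γ]
    rw [Finset.prod_smul, heckeTransfer_apply]
    congr 1
    · push_cast
      rfl
    · exact Equiv.prod_comp (MulAction.toPerm (redMatrix ℓ (γ : SL(2, ℤ))))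
        (fun x => f ∣[w] heckeRep ℓ x)
  · rw [fc_prod_slash_SL2]
    exact fc_isBoundedAtImInfty_prod _ _ fun i _ => hf.bdd_slash_heckeRep g i

/-- Holomorphic functions on `ℍ` form a domain. -/
theorem fc_mdiff_eq_zero_or_eq_zero_of_mul_eq_zero {F G : ℍ → ℂ} (hF : MDiff F) (hG : MDiff G)
    (h : F * G = 0) : F = 0 ∨ G = 0 := by
  have hF' : AnalyticOnNhd ℂ (F ∘ ofComplex) {z : ℂ | 0 < z.im} :=
    (UpperHalfPlane.mdifferentiable_iff.mp hF).analyticOnNhd isOpen_upperHalfPlaneSet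
  have hG' : AnalyticOnNhd ℂ (G ∘ ofComplex) {z : ℂ | 0 < z.im} :=
    (UpperHalfPlane.mdifferentiable_iff.mp hG).analyticOnNhd isOpen_upperHalfPlaneSet
  have hconn : IsPreconnected {z : ℂ | 0 < z.im} := (convex_halfSpace_im_gt 0).isPreconnected
  have hprod : ∀ z ∈ {z : ℂ | 0 < z.im}, (F ∘ ofComplex) z * (G ∘ ofComplex) z = 0 := by
    intro z _
    have := congrFun h (ofComplex z)
    simpa using this
  rcases hF'.eq_zero_or_eq_zero_of_mul_eq_zero hG' hprod hconn with h0 | h0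
  · left
    funext τ
    have := h0 (τ : ℂ) τ.im_pos
    simpa using this
  · right
    funext τ
    have := h0 (τ : ℂ) τ.im_pos
    simpa using this

theorem fc_mdiff_prod_ne_zero {ι : Type*} (s : Finset ι) (F : ι → ℍ → ℂ)
    (hF : ∀ i ∈ s, MDiff (F i)) (h0 : ∀ i ∈ s, F i ≠ 0) : (∏ i ∈ s, F i) ≠ 0 := by
  classical
  induction s using Finset.induction_on with
  | empty =>
    simp only [Finset.prod_empty]
    intro h
    have := congrFun h UpperHalfPlane.I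
    simp at this
  | insert a s ha ih =>
    rw [Finset.prod_insert ha]
    intro h
    have hs : MDiff (∏ i ∈ s, F i) := by
      clear ih h h0
      induction s using Finset.induction_on with
      | empty =>
        simp only [Finset.prod_empty]
        exact mdifferentiable_const
      | insert b t hb iht =>
        rw [Finset.prod_insert hb]
        refine (hF b ?_).mul (iht ?_ ?_)
        · simp
        · intro hh
          exact ha (Finset.mem_insert_of_mem hh)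
        · intro i hi
          rcases Finset.mem_insert.mp hi with rfl | hi
          · exact hF _ (Finset.mem_insert_self _ _)
          · exact hF i (Finset.mem_insert_of_mem (Finset.mem_insert_of_mem hi))
    rcases fc_mdiff_eq_zero_or_eq_zero_of_mul_eq_zero (hF a (Finset.mem_insert_self a s)) hs h
      with h1 | h1
    · exact h0 a (Finset.mem_insert_self a s) h1
    · exact ih (fun i hi => hF i (Finset.mem_insert_of_mem hi))
        (fun i hi => h0 i (Finset.mem_insert_of_mem hi)) h1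

theorem fc_slash_ne_zero {f : ℍ → ℂ} (hf0 : f ≠ 0) (w : ℤ) (g : GL (Fin 2) ℝ) : f ∣[w] g ≠ 0 := by
  intro h
  apply hf0
  have h1 : (f ∣[w] g) ∣[w] g⁻¹ = f := by
    rw [← SlashAction.slash_mul, mul_inv_cancel, SlashAction.slash_one]
  rw [← h1, h, SlashAction.zero_slash]

/-- The Hecke product of a nonzero function is nonzero. -/
theorem heckeProd_ne_zero {ℓ : ℕ} [Fact ℓ.Prime] {w : ℤ} {f : ℍ → ℂ} (hf : MDiff f)
    (hf0 : f ≠ 0) :
    (fun z => ∏ i : OnePoint (ZMod ℓ), (f ∣[w] heckeRep ℓ i) z) ≠ 0 := by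
  have e : (fun z => ∏ i : OnePoint (ZMod ℓ), (f ∣[w] heckeRep ℓ i) z)
      = ∏ i : OnePoint (ZMod ℓ), (f ∣[w] heckeRep ℓ i) := by
    funext z
    rw [Finset.prod_apply]
  rw [e]
  exact fc_mdiff_prod_ne_zero _ _ (fun i _ => hf.slash w _) (fun i _ => fc_slash_ne_zero hf0 w _)

end Fermat.Agent.F3I2
end
end MergeWrap_F3_I2_FormChar
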